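import Fermat.Agent.S19.Mod.Pol
import Fermat.Agent.S36.Base.Inertia

/-!
# S19 / Mod / Scale : the Gauss norm of an inertia invariant function is a power of `ℓ`
-/

set_option autoImplicit false

open AlgebraicCurve ModularCurve

namespace Fermat.Agent.S19.Mod

open Fermat.Agent.ES (Qb FF GQ galF)
open Fermat.Agent.S37.Mod
open Fermat.Agent

noncomputable section

variable {M : ℕ} [NeZero M] {A : ValuationSubring Qb} {ℓ : ℕ}

/-- TASK S19/C-Scale-a.  `P = phiF p`, so `ES.Pivot.FGCoeff P` (`S24.Gen.coe_phiF`, `ES.Pivot.FGCoeff.aeval`) and `ES.Pivot.exists_scale A P`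
gives `c ≠ 0`, `a : A((q))` with `io A a = c * P`, `rd A a ≠ 0`.  Pick `n` with `(rd A a).coeff n ≠ 0`, i.e. `a.coeff n` is a unit of `A`, and `(a.coeff n : Qb) = c * P.coeff n`.
`y := P.coeff n` is fixed by inertia (take the `n`-th coefficient of `hinv`; `ES.coe_galF`, `coeffMap_coeff`), i.e. `y ∈ S36.Base.L0 A` (`mem_L0_iff`), `y ≠ 0`;
`S36.Base.exists_zpow_mul_mem hℓ hA`: `w := y * ℓ ^ k` is a unit of `A`.  Then `ℓ ^ k * P = (w / (c * y)) * (c * P) = io A (e • a)` with `e = w * (c y)⁻¹` a unit of `A`;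
take `a' := C e * a` (`HahnSeries.single 0 e * a`, see `S37.Mod.io_const`, `rd_const`), `rd A a' = ē * rd A a ≠ 0`.
`IsI M A a'` because `io A a' = ℓ ^ k * P ∈ FF M`. -/
theorem exists_scale_pol (hℓ : ℓ.Prime) (hA : A.LiesOverPrime ℓ) {P : FF M} (hP : IsPol P)
    (h0 : P ≠ 0) (hinv : ∀ σ ∈ A.inertiaSubgroupIn ℚ, galF M σ P = P) :
    ∃ (k : ℤ) (a : LaurentSeries A), IsI M A a ∧ rd A a ≠ 0 ∧
      io A a = algebraMap Qb (LaurentSeries Qb) ((ℓ : Qb) ^ k) * (P : LaurentSeries Qb) := by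
  obtain ⟨p, rfl⟩ := hP
  have hP' : ((S24.phiF M p : FF M) : LaurentSeries Qb) ≠ 0 := fun h => h0 (Subtype.ext h)
  obtain ⟨c, a, hc, ha, ha'⟩ := ES.Pivot.exists_scale A _
    (by rw [S24.Gen.coe_phiF]; exact ES.Pivot.FGCoeff.aeval M p) hP'
  obtain ⟨n, hn⟩ : ∃ n, (rd A a).coeff n ≠ 0 := by
    by_contra hcon
    push Not at hcon
    exact ha' (HahnSeries.ext (funext hcon))
  rw [coeffMap_coeff] at hn
  have hunit : IsUnit (a.coeff n) := by
    by_contra h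
    exact hn ((IsLocalRing.residue_eq_zero_iff _).2 h)
  obtain ⟨b, hb⟩ := hunit.exists_right_inv
  have hcoef : ((a.coeff n : A) : Qb)
      = c * ((S24.phiF M p : FF M) : LaurentSeries Qb).coeff n := by
    have h1 := congrArg (fun x : LaurentSeries Qb => x.coeff n) ha
    simp only [coeffMap_coeff] at h1
    rw [S24.Gen.coeff_algebraMap_mul] at h1
    exact h1
  have hb' : ((a.coeff n : A) : Qb) * (b : Qb) = 1 := by
    have := congrArg (fun x : A => (x : Qb)) hb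
    simpa using this
  have hcy0 : c * ((S24.phiF M p : FF M) : LaurentSeries Qb).coeff n ≠ 0 := by
    rw [← hcoef]
    exact left_ne_zero_of_mul_eq_one hb'
  have hy0 : ((S24.phiF M p : FF M) : LaurentSeries Qb).coeff n ≠ 0 := right_ne_zero_of_mul hcy0
  have hy : ((S24.phiF M p : FF M) : LaurentSeries Qb).coeff n ∈ S36.Base.L0 A := by
    refine S36.Base.mem_L0_iff.2 fun σ hσ => ?_
    have h1 := congrArg (fun x : FF M => (x : LaurentSeries Qb).coeff n) (hinv σ hσ)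
    simp only [ES.coe_galF, coeffMap_coeff] at h1
    exact h1
  obtain ⟨k, hk1, hk2⟩ := S36.Base.exists_zpow_mul_mem hℓ hA hy hy0
  set y : Qb := ((S24.phiF M p : FF M) : LaurentSeries Qb).coeff n with hydef
  have hℓ0 : ((ℓ : Qb) ^ k) ≠ 0 := zpow_ne_zero _ (Nat.cast_ne_zero.2 hℓ.ne_zero)
  have hw0 : y * (ℓ : Qb) ^ k ≠ 0 := mul_ne_zero hy0 hℓ0
  let w : A := ⟨y * (ℓ : Qb) ^ k, hk1⟩
  let w' : A := ⟨(y * (ℓ : Qb) ^ k)⁻¹, hk2⟩
  have hww' : w * w' = 1 := Subtype.ext (mul_inv_cancel₀ hw0)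
  have heunit : IsUnit (w * b) :=
    (IsUnit.of_mul_eq_one _ hww').mul (IsUnit.of_mul_eq_one _ (by rw [mul_comm]; exact hb))
  have hec : ((w * b : A) : Qb) * c = (ℓ : Qb) ^ k := by
    have hbv : (b : Qb) = (c * y)⁻¹ := by
      rw [← hcoef]
      exact eq_inv_of_mul_eq_one_right hb'
    show y * (ℓ : Qb) ^ k * (b : Qb) * c = _
    rw [hbv]
    field_simp
  have hio : io A (HahnSeries.single 0 (w * b) * a)
      = algebraMap Qb (LaurentSeries Qb) ((ℓ : Qb) ^ k)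
        * ((S24.phiF M p : FF M) : LaurentSeries Qb) := by
    rw [map_mul, io_const, ha, ← mul_assoc, ← map_mul, hec]
  refine ⟨k, HahnSeries.single 0 (w * b) * a, ?_, ?_, hio⟩
  · rw [IsI, hio]
    exact mul_mem (IntermediateField.algebraMap_mem _ _) (S24.phiF M p).2
  · rw [map_mul, rd_const]
    refine mul_ne_zero ?_ ha'
    rw [Ne, map_eq_zero]
    intro h
    exact ((IsLocalRing.residue_eq_zero_iff _).1 h) heunit

/-- TASK S19/C-Scale-b.  **The Gauss norm of an inertia invariant function is a power of `ℓ`.**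
`exists_invariant_fraction (A.inertiaSubgroupIn ℚ) f (fixF_iff.1 hinv)`: `f * Q = P`; `P ≠ 0`; `exists_scale_pol` for `P` (`k₁, a`) and `Q` (`k₂, b`).
Then `(ℓ ^ (k₁ - k₂) * f) * io A b = io A a` (`zpow_sub₀`, `ℓ ≠ 0` in `Qb`), so `RedRel M A (ℓ ^ (k₁ - k₂) * f) (rd A a / rd A b)`;
`S37.Mod.red_iff`; the reduction `⟨rd A a / rd A b, _⟩ : resF M A` is nonzero. -/
theorem exists_scale_inv (hℓ : ℓ.Prime) (hA : A.LiesOverPrime ℓ) (f : FF M) (hf : f ≠ 0)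
    (hinv : Geo0.FixF (αI M A) f) :
    ∃ (k : ℤ) (u : resF M A), u ≠ 0 ∧
      (gaussVFF M A).Red (algebraMap Qb (FF M) ((ℓ : Qb) ^ k) * f) u := by
  obtain ⟨P, Q, hP, hQ, hQ0, hfQ, hPinv, hQinv⟩ :=
    exists_invariant_fraction (A.inertiaSubgroupIn ℚ) f (fixF_iff.1 hinv)
  have hP0 : P ≠ 0 := by
    rw [← hfQ]
    exact mul_ne_zero hf hQ0
  obtain ⟨k₁, a, haI, ha0, ha⟩ := exists_scale_pol hℓ hA hP hP0 hPinv
  obtain ⟨k₂, b, hbI, hb0, hb⟩ := exists_scale_pol hℓ hA hQ hQ0 hQinv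
  have hl0 : (ℓ : Qb) ≠ 0 := Nat.cast_ne_zero.2 hℓ.ne_zero
  have hcoe : ((algebraMap Qb (FF M) ((ℓ : Qb) ^ (k₁ - k₂)) * f : FF M) : LaurentSeries Qb) =
      algebraMap Qb (LaurentSeries Qb) ((ℓ : Qb) ^ (k₁ - k₂)) * (f : LaurentSeries Qb) := rfl
  have hPc : (P : LaurentSeries Qb) = (f : LaurentSeries Qb) * (Q : LaurentSeries Qb) := by
    rw [← hfQ]
    rfl
  have hrel : RedRel M A
      ((algebraMap Qb (FF M) ((ℓ : Qb) ^ (k₁ - k₂)) * f : FF M) : LaurentSeries Qb)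
      (rd A a / rd A b) := by
    refine ⟨a, b, haI, hbI, hb0, ?_, div_mul_cancel₀ _ hb0⟩
    rw [ha, hb, hcoe, hPc]
    have h1 : algebraMap Qb (LaurentSeries Qb) ((ℓ : Qb) ^ (k₁ - k₂)) *
        algebraMap Qb (LaurentSeries Qb) ((ℓ : Qb) ^ k₂) =
        algebraMap Qb (LaurentSeries Qb) ((ℓ : Qb) ^ k₁) := by
      rw [← map_mul, ← zpow_add₀ hl0, sub_add_cancel]
    rw [← h1]
    ring
  refine ⟨k₁ - k₂, ⟨rd A a / rd A b, ⟨_, hrel⟩⟩, ?_, red_iff.2 hrel⟩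
  intro h
  exact div_ne_zero ha0 hb0 (congrArg Subtype.val h)

end

end Fermat.Agent.S19.Mod
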