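import Fermat.Agent.S19.Mod.Span
import Fermat.Agent.S19.Mod.Scale
import Fermat.Agent.S36.Base.Residue
import Fermat.Agent.S36.Base.Dvr

/-!
# S19 / Mod / Base : the rational structure `Geo0.RatStr` for `(Qbar, A, I_A, ℓ)` and `FF M`

`ratStr : Geo0.RatStr (αI M A) (gaussVFF M A) (ℓ : Qb) (xQ hx)`; together with `good` (`Act.lean`) this is the whole modular input of S19.
(`RL.Iner`, `RL.Base` for `G = (αI M A).range` follow: `Geo0.RatStr.iner`, `Geo0.RatStr.base`.)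
-/

set_option autoImplicit false

open AlgebraicCurve ModularCurve

namespace Fermat.Agent.S19.Mod

open Fermat.Agent.ES (Qb FF GQ galF)
open Fermat.Agent.S37.Mod
open Fermat.Agent.Crux (GM.GoodCoord GM.castS)
open Fermat.Agent

noncomputable section

variable {A : ValuationSubring Qb} {ℓ : ℕ}

/-- inertia preserves `A`. -/
theorem inertia_mem {σ : GQ} (hσ : σ ∈ A.inertiaSubgroupIn ℚ) {a : Qb} (ha : a ∈ A) : σ a ∈ A := by
  obtain ⟨g, rfl, -⟩ := ES.res_galA_of_inertia hσ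
  exact (ES.galA g ⟨a, ha⟩).2

/-- `L0/ℚ` is unramified at `A`. -/
theorem unif (hℓ : ℓ.Prime) (hA : A.LiesOverPrime ℓ) (c : Qb)
    (hc : ∀ σ ∈ A.inertiaSubgroupIn ℚ, σ c = c) (h0 : c ≠ 0) :
    ∃ n : ℤ, c * (ℓ : Qb) ^ n ∈ A ∧ (c * (ℓ : Qb) ^ n)⁻¹ ∈ A :=
  S36.Base.exists_zpow_mul_mem hℓ hA (S36.Base.mem_L0_iff.2 hc) h0

/-- TASK S19/C-Base-b.  **The valuation of `A` has rank one.**
Either via `S55/Places` (`exists_smul_padicPlace_eq ℓ A hA : ∃ g, g • padicPlace ℓ = A`, the real norm `nrm`, `mem_nonunits_iff_nrm`, as in `S36/Base/Residue.lean`, l. 29-42: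
`nrm y < 1` ⇒ `nrm y ^ N ≤ nrm ℓ`), or directly: `a ≠ 0` is a root of a primitive `P = ∑ c_i X^i ∈ ℤ[X]`; `i₀` := the least `i` with `ℓ ∤ c_i`; then
`a ^ i₀ * (c_{i₀} + a * (..)) = - ∑_{i < i₀} c_i a ^ i ∈ ℓ A` and `c_{i₀} + a * (..)` is a unit of `A`. -/
theorem nilp (hℓ : ℓ.Prime) (hA : A.LiesOverPrime ℓ) {a : Qb} (ha : a ∈ A.nonunits) :
    ∃ N : ℕ, ∃ b ∈ A, a ^ N = (ℓ : Qb) * b := by
  have : Fact ℓ.Prime := ⟨hℓ⟩
  obtain ⟨g, rfl⟩ := S55.Places.exists_smul_padicPlace_eq ℓ A hA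
  have h1 : S55.Places.nrm ℓ (g⁻¹ a) < 1 := by
    rw [S55.Places.transitive_mem_nonunits_smul_iff, S55.Places.mem_nonunits_iff_nrm] at ha
    exact ha
  have hℓ0 : (0 : ℝ) < (ℓ : ℝ)⁻¹ := inv_pos.2 (by exact_mod_cast hℓ.pos)
  obtain ⟨N, hN⟩ := exists_pow_lt_of_lt_one hℓ0 h1
  have hℓQ : (ℓ : Qb) ≠ 0 := Nat.cast_ne_zero.2 hℓ.ne_zero
  refine ⟨N, a ^ N / (ℓ : Qb), ?_, ?_⟩
  · rw [S55.Places.mem_smul_padicPlace_iff, map_div₀, map_pow, map_natCast, S55.Places.nrm_div,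
      S55.Places.nrm_pow, S55.Places.nrm_natCast_self, div_le_one hℓ0]
    exact hN.le
  · rw [mul_div_cancel₀ _ hℓQ]

/-- TASK S19/C-Base-a.  **Rank one, other half.**  Either via `S55/Places` (as for `nilp`: `A = g • padicPlace ℓ`, `nrm ℓ < 1`, so `nrm ℓ ^ N * nrm (g⁻¹ c) ≤ 1` for `N` large;
membership in `padicPlace ℓ` is `nrm _ ≤ 1`), or directly: if `c ∈ A` take `N = 0`; otherwise `d := c⁻¹ ∈ A`, `d ≠ 0` is a root of `P ∈ ℤ[X]` with `P.coeff 0 ≠ 0`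
(minimal polynomial over `ℚ`, denominators cleared), so `P.coeff 0 = - d * (∑_{i ≥ 1} c_i d ^ (i-1)) ∈ d A`; write `P.coeff 0 = ℓ ^ N * u`, `ℓ ∤ u`; `u` is a unit of `A`
(Bezout `s u + t ℓ = 1` and `ℓ ∈ m_A`), so `ℓ ^ N ∈ d A`, i.e. `ℓ ^ N * c ∈ A`. -/
theorem arch (hℓ : ℓ.Prime) (hA : A.LiesOverPrime ℓ) (c : Qb) : ∃ N : ℕ, (ℓ : Qb) ^ N * c ∈ A := by
  have hint : ∀ m : ℤ, A.valuation (m : Qb) ≤ 1 := fun m =>
    (A.valuation_le_one_iff _).2 (intCast_mem A m)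
  have hℓv : A.valuation (ℓ : Qb) < 1 := A.mem_nonunits_iff.1 hA
  -- an integral multiple
  have halg : IsAlgebraic ℤ c :=
    (IsFractionRing.isAlgebraic_iff ℤ ℚ Qb).2 ((AlgebraicClosure.isAlgebraic ℚ).isAlgebraic c)
  obtain ⟨m, hm0, hm⟩ := halg.exists_integral_multiple
  have hmA : (m : Qb) * c ∈ A := by
    have h1 : IsIntegral A (m • c) := hm.tower_top
    obtain ⟨y, hy⟩ := IsIntegrallyClosed.isIntegral_iff.1 h1
    rw [zsmul_eq_mul] at hy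
    rw [← hy]
    exact y.2
  have hfin : FiniteMultiplicity (ℓ : ℤ) m :=
    Int.finiteMultiplicity_iff.2 ⟨by simpa using hℓ.ne_one, hm0⟩
  obtain ⟨u, hu, hdvd⟩ := hfin.exists_eq_pow_mul_and_not_dvd
  obtain ⟨a, b, hab⟩ := ((Nat.prime_iff_prime_int.mp hℓ).coprime_iff_not_dvd).2 hdvd
  have huv : A.valuation (u : Qb) = 1 := by
    refine le_antisymm (hint u) (not_lt.1 fun hlt => ?_)
    have h1 : A.valuation ((a : Qb) * (ℓ : Qb) + (b : Qb) * (u : Qb)) < 1 := by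
      apply Valuation.map_add_lt
      · rw [map_mul]
        exact (mul_le_of_le_one_left' (hint a)).trans_lt hℓv
      · rw [map_mul]
        exact (mul_le_of_le_one_left' (hint b)).trans_lt hlt
    have h2 : (a : Qb) * (ℓ : Qb) + (b : Qb) * (u : Qb) = 1 := by exact_mod_cast hab
    rw [h2, map_one] at h1
    exact lt_irrefl _ h1
  refine ⟨multiplicity (ℓ : ℤ) m, ?_⟩
  rw [← A.valuation_le_one_iff] at hmA ⊢
  have h3 : (m : Qb) = (ℓ : Qb) ^ multiplicity (ℓ : ℤ) m * (u : Qb) := by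
    conv_lhs => rw [hu]
    push_cast
    ring
  rw [h3, map_mul, map_mul, huv, mul_one] at hmA
  rw [map_mul]
  exact hmA

/-- TASK S19/C-Base-c.  `IsLocalRing.residue_surjective`: `x = residue ⟨a, ha⟩`; `S36.Base.exists_mem_L0_sub_mem_nonunits hℓ hA ha`: `b ∈ L0 A`, `b ∈ A`, `a - b ∈ m_A`;
`b` is inertia invariant (`S36.Base.mem_L0_iff`), `Red.res π b = π ⟨b, _⟩` (`dif_pos`) `= π ⟨a, _⟩` (`IsLocalRing.residue_eq_zero_iff` for the difference,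
`ValuationSubring.mem_nonunits_iff_exists_mem_maximalIdeal`). -/
theorem res_surj (hℓ : ℓ.Prime) (hA : A.LiesOverPrime ℓ) (x : kA A) :
    ∃ a : Qb, a ∈ A ∧ (∀ σ ∈ A.inertiaSubgroupIn ℚ, σ a = a) ∧
      S37.Red.res (IsLocalRing.residue A) a = x := by
  obtain ⟨⟨a, ha⟩, rfl⟩ := IsLocalRing.residue_surjective x
  obtain ⟨b, hbL, hbA, hab⟩ := S36.Base.exists_mem_L0_sub_mem_nonunits hℓ hA ha
  refine ⟨b, hbA, S36.Base.mem_L0_iff.1 hbL, ?_⟩
  rw [S37.Red.res, dif_pos hbA]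
  rw [ValuationSubring.mem_nonunits_iff_exists_mem_maximalIdeal] at hab
  obtain ⟨h1, h2⟩ := hab
  have h3 : IsLocalRing.residue A (⟨a, ha⟩ - ⟨b, hbA⟩) = 0 := by
    rw [IsLocalRing.residue_eq_zero_iff]
    exact h2
  rw [map_sub, sub_eq_zero] at h3
  exact h3.symm

variable {M : ℕ} [NeZero M] {xh : LaurentSeries ℤ} {β : ℤ} {n : ℕ}

/-- **the rational structure of the modular function field.** -/
theorem ratStr (hℓ : ℓ.Prime) (hx : GM.GoodCoord M ℓ xh β n) (hA : A.LiesOverPrime ℓ) :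
    Geo0.RatStr (αI M A) (gaussVFF M A) (ℓ : Qb) (xQ hx) where
  red_smul := red_smul
  fix_y := fixF_xQ hx
  fix_span := fix_span A
  unif_fix := fun σ => map_natCast (σ : GQ) ℓ
  unif_nonunit := hA
  unif_ne := Nat.cast_ne_zero.2 hℓ.ne_zero
  unif := fun c hc h0 => unif hℓ hA c (fixK_iff.1 hc) h0
  arch := arch hℓ hA
  nilp := fun _ ha => nilp hℓ hA ha
  res_surj := fun x => by
    obtain ⟨a, ha, hfix, hx⟩ := res_surj hℓ hA x
    exact ⟨a, ha, fixK_iff.2 hfix, hx⟩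
  scale := fun f hf h0 => by
    obtain ⟨k, u, hu, hred⟩ := exists_scale_inv hℓ hA f h0 hf
    exact ⟨(ℓ : Qb) ^ k, fun σ => by
      show (σ : GQ) ((ℓ : Qb) ^ k) = (ℓ : Qb) ^ k
      rw [map_zpow₀, map_natCast], zpow_ne_zero _ (Nat.cast_ne_zero.2 hℓ.ne_zero), u, hu, hred⟩

end

end Fermat.Agent.S19.Mod
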