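import Fermat.Agent.S19.Geo0.Rat
import Fermat.Agent.S37.Mod.Normal
import Fermat.Agent.ES.B.Red

/-!
# S19 / Mod / Act : the inertia group of `A` acting on the modular function field `FF M`

* `gal M σ`   : the semilinear automorphism of `FF M` attached to `σ ∈ G_ℚ` (coefficientwise action);
* `αI M A`    : the action of the inertia group of `A` (`Γ = ↥(A.inertiaSubgroupIn ℚ)`), as needed by `Geo0.RatStr`;
* `RI A`      : `A ∩ Qbar^I` as a subring of `Qbar`;  `fixR_eq : RL.fixR A (RL.βG (αI M A).range) = RI A`;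
* `red_smul`  : inertia acts trivially on reductions (Gauss valuation `S37.Mod.gaussVFF M A`);
* `good`      : `Geo0.Good (gaussVFF M A) (xQ hx) (xk hx A)` for a good coordinate.
-/

set_option autoImplicit false

open AlgebraicCurve ModularCurve

namespace Fermat.Agent.S19.Mod

open Fermat.Agent.ES (Qb FF GQ galF)
open Fermat.Agent.S37.Mod
open Fermat.Agent.S37 (Red.VFF)
open Fermat.Agent.Crux (GM.GoodCoord GM.castS)

noncomputable section

/-- the semilinear automorphism of `FF M` attached to `σ ∈ G_ℚ`. -/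
abbrev gal (M : ℕ) (σ : GQ) : SemilinearAut Qb (FF M) :=
  arithmeticGalois (modularFunctionFieldFull M) σ

theorem coe_gal_smul (M : ℕ) (σ : GQ) (f : FF M) :
    ((gal M σ • f : FF M) : LaurentSeries Qb) = coeffMap (σ : Qb →+* Qb) (f : LaurentSeries Qb) :=
  rfl

theorem gal_smul_eq_galF (M : ℕ) (σ : GQ) (f : FF M) : gal M σ • f = galF M σ f := rfl

theorem baseAut_gal (M : ℕ) (σ : GQ) (a : Qb) : SemilinearAut.baseAut (gal M σ) a = σ a := rfl

/-- the inertia group of `A` acting on `FF M`. -/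
def αI (M : ℕ) (A : ValuationSubring Qb) :
    ↥(A.inertiaSubgroupIn ℚ) →* SemilinearAut Qb (FF M) :=
  (arithmeticGalois (modularFunctionFieldFull M)).comp (A.inertiaSubgroupIn ℚ).subtype

theorem αI_apply (M : ℕ) (A : ValuationSubring Qb) (σ : ↥(A.inertiaSubgroupIn ℚ)) :
    αI M A σ = gal M (σ : GQ) := rfl

theorem fixK_iff {M : ℕ} {A : ValuationSubring Qb} {c : Qb} :
    Geo0.FixK (αI M A) c ↔ ∀ σ ∈ A.inertiaSubgroupIn ℚ, σ c = c :=
  ⟨fun h σ hσ => h ⟨σ, hσ⟩, fun h σ => h σ σ.2⟩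

theorem fixF_iff {M : ℕ} {A : ValuationSubring Qb} {f : FF M} :
    Geo0.FixF (αI M A) f ↔ ∀ σ ∈ A.inertiaSubgroupIn ℚ, galF M σ f = f :=
  ⟨fun h σ hσ => h ⟨σ, hσ⟩, fun h σ => h σ σ.2⟩

/-- `A ∩ Qbar^I`. -/
def RI (A : ValuationSubring Qb) : Subring Qb where
  carrier := {a | a ∈ A ∧ ∀ σ ∈ A.inertiaSubgroupIn ℚ, σ a = a}
  mul_mem' := fun {a b} ha hb => ⟨A.mul_mem _ _ ha.1 hb.1, fun σ hσ => by
    rw [map_mul, ha.2 σ hσ, hb.2 σ hσ]⟩
  one_mem' := ⟨A.one_mem, fun σ _ => map_one _⟩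
  add_mem' := fun {a b} ha hb => ⟨A.add_mem _ _ ha.1 hb.1, fun σ hσ => by
    rw [map_add, ha.2 σ hσ, hb.2 σ hσ]⟩
  zero_mem' := ⟨A.zero_mem, fun σ _ => map_zero _⟩
  neg_mem' := fun {a} ha => ⟨A.neg_mem _ ha.1, fun σ hσ => by rw [map_neg, ha.2 σ hσ]⟩

theorem mem_RI {A : ValuationSubring Qb} {a : Qb} :
    a ∈ RI A ↔ a ∈ A ∧ ∀ σ ∈ A.inertiaSubgroupIn ℚ, σ a = a := Iff.rfl

theorem fixR_eq (M : ℕ) (A : ValuationSubring Qb) :
    RL.fixR A (RL.βG (αI M A).range) = RI A := by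
  ext a
  rw [RL.mem_fixR, mem_RI]
  refine and_congr_right fun _ => ⟨fun h σ hσ => h ⟨_, ⟨⟨σ, hσ⟩, rfl⟩⟩, ?_⟩
  rintro h ⟨_, σ, rfl⟩
  exact h σ σ.2

variable {M : ℕ} {A : ValuationSubring Qb}

/-- inertia acts trivially on reductions, `q`-expansion form. -/
theorem redRel_gal {σ : GQ} (hσ : σ ∈ A.inertiaSubgroupIn ℚ) {f : LaurentSeries Qb}
    {u : LaurentSeries (kA A)} (h : RedRel M A f u) :
    RedRel M A (coeffMap (σ : Qb →+* Qb) f) u := by
  obtain ⟨g, rfl, hg⟩ := Fermat.Agent.ES.res_galA_of_inertia hσ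
  obtain ⟨a, b, ha, hb, hb0, hf, hu⟩ := h
  have key : ∀ y : LaurentSeries A, rd A (coeffMap (Fermat.Agent.ES.galA g) y) = rd A y := by
    intro y
    rw [coeffMap_coeffMap]
    exact congrArg (fun φ => coeffMap φ y) hg
  have keyI : ∀ y : LaurentSeries A, IsI M A y → IsI M A (coeffMap (Fermat.Agent.ES.galA g) y) := by
    intro y hy
    rw [IsI, Fermat.Agent.ES.coeffMap_subtype_galA]
    exact coeffMap_mem_laurentBaseChange _ hy
  refine ⟨coeffMap (Fermat.Agent.ES.galA g) a, coeffMap (Fermat.Agent.ES.galA g) b, keyI a ha,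
    keyI b hb, by rwa [key], ?_, by rw [key, key]; exact hu⟩
  rw [Fermat.Agent.ES.coeffMap_subtype_galA, Fermat.Agent.ES.coeffMap_subtype_galA, ← map_mul, hf]

/-- inertia acts trivially on reductions. -/
theorem red_smul [NeZero M] (σ : ↥(A.inertiaSubgroupIn ℚ)) (f : FF M)
    (ft : resF M A) (h : (gaussVFF M A).Red f ft) : (gaussVFF M A).Red (αI M A σ • f) ft := by
  rw [red_iff] at h ⊢
  exact redRel_gal σ.2 h

variable {ℓ : ℕ} {xh : LaurentSeries ℤ} {β : ℤ} {n : ℕ}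

/-- a function with integral `q`-expansion is Galois invariant. -/
theorem gal_zQ [NeZero M] (σ : GQ) (z : LaurentSeries ℤ)
    (hz : GM.castS Qb z ∈ modularFunctionFieldFullC Qb M) : gal M σ • zQ z hz = zQ z hz :=
  Subtype.ext (Fermat.Agent.Crux.GM.coeffMap_castS _ z)

theorem fixF_xQ [NeZero M] (hx : GM.GoodCoord M ℓ xh β n) : Geo0.FixF (αI M A) (xQ hx) :=
  fun σ => gal_zQ (σ : GQ) xh (hx.mem Qb)

/-- **good reduction** in the sense of `S19/Geo0`. -/
theorem good [NeZero M] (hℓ : ℓ.Prime) (hx : GM.GoodCoord M ℓ xh β n) (hA : A.LiesOverPrime ℓ) :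
    Geo0.Good (gaussVFF M A) (xQ hx) (xk hx A) :=
  ⟨isChart_goodCoord hℓ hx hA, isChart_goodCoord_inv hℓ hx hA⟩

end

end Fermat.Agent.S19.Mod
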