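import Fermat.Agent.S19.Mod.Act
import Fermat.Agent.S36.Base.Descent

/-!
# S19 / Mod / Pol : invariant fractions

`IsPol f` : `f ∈ FF M` is a polynomial in the `j(q^d)`, `d ∣ M`, with coefficients in `Qbar`.
Every function is a quotient of two such (`S24.exists_phiF_div`).  Multiplying numerator and denominator with the other
conjugates of the denominator we get:

* `exists_mul_invariant`     : `Q ≠ 0` polynomial, `H ≤ G_ℚ` ⇒ `Q * Q'` is `H`-invariant for some polynomial `Q' ≠ 0`;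
* `exists_invariant_fraction`: an `H`-invariant function is a quotient of two `H`-invariant polynomials.
-/

set_option autoImplicit false

open AlgebraicCurve ModularCurve

namespace Fermat.Agent.S19.Mod

open Fermat.Agent.ES (Qb FF GQ galF)
open Fermat.Agent

noncomputable section

variable {M : ℕ} [NeZero M]

/-- `f` is a polynomial in the `j(q^d)`. -/
def IsPol (f : FF M) : Prop := ∃ p : MvPolynomial (S24.Dv M) Qb, f = S24.phiF M p

theorem IsPol.mul {f g : FF M} (hf : IsPol f) (hg : IsPol g) : IsPol (f * g) := by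
  obtain ⟨p, rfl⟩ := hf
  obtain ⟨q, rfl⟩ := hg
  exact ⟨p * q, (map_mul _ _ _).symm⟩

theorem isPol_one : IsPol (1 : FF M) := ⟨1, (map_one _).symm⟩

theorem isPol_prod {J : Type*} (s : Finset J) (f : J → FF M) (h : ∀ j ∈ s, IsPol (f j)) :
    IsPol (∏ j ∈ s, f j) := by
  classical
  induction s using Finset.induction_on with
  | empty => simpa using isPol_one
  | insert a s ha ih =>
    rw [Finset.prod_insert ha]
    exact (h a (Finset.mem_insert_self a s)).mul
      (ih fun j hj => h j (Finset.mem_insert_of_mem hj))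

/-- TASK S19/C-Pol-a.  `galF M σ (phiF p) = phiF (p.map σ)`: both sides are ring homs in `p`
(`MvPolynomial.induction_on`); on constants `arithmeticRingAut_algebraMap`; the generators `S24.jF M d _`
have rational coefficients (`S24.jSer d = coeffEmb Qb _`), so they are fixed: this is the content of
`ES.Pivot.coeffMap_aeval` (apply it to `X d`) . -/
theorem galF_phiF (σ : GQ) (p : MvPolynomial (S24.Dv M) Qb) :
    galF M σ (S24.phiF M p) = S24.phiF M (MvPolynomial.map (σ : Qb →+* Qb) p) := by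
  apply Subtype.ext
  rw [ES.coe_galF, S24.Gen.coe_phiF, S24.Gen.coe_phiF, MvPolynomial.aeval_def,
    MvPolynomial.aeval_def, MvPolynomial.eval₂_map, MvPolynomial.hom_eval₂]
  congr 1
  · refine RingHom.ext fun c => ?_
    rw [RingHom.comp_apply, RingHom.comp_apply, coeffMap_algebraMap]
  · funext d
    rw [S24.jSer, coeffMap_coeffEmb]

theorem IsPol.galF {f : FF M} (hf : IsPol f) (σ : GQ) : IsPol (galF M σ f) := by
  obtain ⟨p, rfl⟩ := hf
  exact ⟨_, galF_phiF σ p⟩

/-- TASK S19/C-Pol-b.  `T := (S36.Base.finite_orbit H Q).toFinset` (the set of `H`-conjugates of `Q`; contains `Q` (`σ = 1`,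
`ES.galF_one`), all its elements are polynomial (`IsPol.galF`) and nonzero).  `Q' := ∏ g ∈ T.erase Q, g`, so `Q * Q' = ∏ g ∈ T, g`
(`Finset.mul_prod_erase`).  For `σ ∈ H` the map `galF M σ` permutes `T` (injective, maps `T` into `T` by `ES.galF_mul`; a finite set),
so `galF M σ (∏ g ∈ T, g) = ∏ g ∈ T, galF M σ g = ∏ g ∈ T, g` (`map_prod`, `Finset.prod_bij` or
`Finset.prod_image` + `Finset.eq_of_subset_of_card_le`). -/
theorem exists_mul_invariant (H : Subgroup GQ) {Q : FF M} (hQ : IsPol Q) (h0 : Q ≠ 0) :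
    ∃ Q' : FF M, IsPol Q' ∧ Q' ≠ 0 ∧ ∀ σ ∈ H, galF M σ (Q * Q') = Q * Q' := by
  classical
  set T : Finset (FF M) := (S36.Base.finite_orbit H Q).toFinset with hT
  have hmem : ∀ g, g ∈ T ↔ ∃ σ : H, galF M (σ : GQ) Q = g := by
    intro g
    rw [hT, Set.Finite.mem_toFinset, Set.mem_range]
  have hQT : Q ∈ T := (hmem Q).2 ⟨1, by rw [Subgroup.coe_one, ES.galF_one]; rfl⟩
  have hpol : ∀ g ∈ T, IsPol g := by
    intro g hg
    obtain ⟨σ, rfl⟩ := (hmem g).1 hg
    exact hQ.galF _
  have hne : ∀ g ∈ T, g ≠ 0 := by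
    intro g hg
    obtain ⟨σ, rfl⟩ := (hmem g).1 hg
    exact (map_ne_zero_iff _ (galF M (σ : GQ)).injective).2 h0
  refine ⟨∏ g ∈ T.erase Q, g, isPol_prod _ _ (fun g hg => hpol g (Finset.mem_of_mem_erase hg)),
    Finset.prod_ne_zero_iff.2 (fun g hg => hne g (Finset.mem_of_mem_erase hg)), fun σ hσ => ?_⟩
  rw [Finset.mul_prod_erase T (fun g => g) hQT, map_prod]
  have himg : T.image (galF M σ) = T := by
    apply Finset.eq_of_subset_of_card_le
    · intro g hg
      obtain ⟨g', hg', rfl⟩ := Finset.mem_image.1 hg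
      obtain ⟨τ, rfl⟩ := (hmem g').1 hg'
      exact (hmem _).2 ⟨⟨σ, hσ⟩ * τ, by rw [Subgroup.coe_mul, ES.galF_mul]⟩
    · rw [Finset.card_image_of_injective _ (galF M σ).injective]
  conv_rhs => rw [← himg]
  rw [Finset.prod_image (fun x _ y _ h => (galF M σ).injective h)]

/-- every function is a fraction `P / Q` of polynomials with `H`-invariant denominator. -/
theorem exists_fraction (H : Subgroup GQ) (f : FF M) :
    ∃ P Q : FF M, IsPol P ∧ IsPol Q ∧ Q ≠ 0 ∧ f * Q = P ∧ ∀ σ ∈ H, galF M σ Q = Q := by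
  obtain ⟨p, q, hq, hf⟩ := S24.exists_phiF_div M f
  obtain ⟨Q', hQ', h0, hinv⟩ := exists_mul_invariant H (Q := S24.phiF M q) ⟨q, rfl⟩ hq
  refine ⟨S24.phiF M p * Q', S24.phiF M q * Q', IsPol.mul ⟨p, rfl⟩ hQ', IsPol.mul ⟨q, rfl⟩ hQ',
    mul_ne_zero hq h0, ?_, hinv⟩
  rw [hf, ← mul_assoc, div_mul_cancel₀ _ hq]

/-- an `H`-invariant function is a fraction of `H`-invariant polynomials. -/
theorem exists_invariant_fraction (H : Subgroup GQ) (f : FF M) (hf : ∀ σ ∈ H, galF M σ f = f) :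
    ∃ P Q : FF M, IsPol P ∧ IsPol Q ∧ Q ≠ 0 ∧ f * Q = P ∧ (∀ σ ∈ H, galF M σ P = P) ∧
      ∀ σ ∈ H, galF M σ Q = Q := by
  obtain ⟨P, Q, hP, hQ, h0, hfQ, hinv⟩ := exists_fraction H f
  exact ⟨P, Q, hP, hQ, h0, hfQ, fun σ hσ => by rw [← hfQ, map_mul, hf σ hσ, hinv σ hσ], hinv⟩

end

end Fermat.Agent.S19.Mod
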