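import Fermat.Agent.S19.Mod.Pol

/-!
# S19 / Mod / Span : `FF M` is spanned over `Qbar` by the Galois invariant functions
-/

set_option autoImplicit false

open AlgebraicCurve ModularCurve

namespace Fermat.Agent.S19.Mod

open Fermat.Agent.ES (Qb FF GQ galF)
open Fermat.Agent

noncomputable section

variable {M : ℕ} [NeZero M]

/-- TASK S19/C-Span.  `exists_fraction ⊤ f`: `f * Q = P`, `Q ≠ 0` invariant under all of `G_ℚ`, `P = phiF p`.
`p = ∑ m ∈ p.support, C (p.coeff m) * monomial m 1` (`MvPolynomial.as_sum`, `MvPolynomial.support_sum_monomial_coeff`), so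
`f = P / Q = ∑ m, p.coeff m • (phiF (monomial m 1) / Q)` (`Algebra.smul_def`, `map_sum`, `Finset.sum_div`), and `phiF (monomial m 1) / Q` is invariant:
`galF_phiF` + `MvPolynomial.map_monomial` + `map_one`, `map_div₀`.  `Submodule.sum_mem`, `Submodule.smul_mem`, `Submodule.subset_span`. -/
theorem mem_span_fixed (f : FF M) :
    f ∈ Submodule.span Qb {f' : FF M | ∀ σ : GQ, galF M σ f' = f'} := by
  obtain ⟨P, Q, ⟨p, rfl⟩, -, h0, hfQ, hinv⟩ := exists_fraction (⊤ : Subgroup GQ) f
  have hf : f = S24.phiF M p / Q := by rw [← hfQ, mul_div_cancel_right₀ _ h0]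
  have hp : S24.phiF M p =
      ∑ m ∈ p.support, p.coeff m • S24.phiF M (MvPolynomial.monomial m 1) := by
    conv_lhs => rw [p.as_sum]
    rw [map_sum]
    refine Finset.sum_congr rfl fun m _ => ?_
    have h1 : MvPolynomial.monomial m (p.coeff m) =
        MvPolynomial.C (p.coeff m) * MvPolynomial.monomial m (1 : Qb) := by
      rw [MvPolynomial.C_mul_monomial, mul_one]
    rw [h1, map_mul, Algebra.smul_def]
    congr 1
    exact (S24.phiF M).commutes (p.coeff m)
  rw [hf, hp, Finset.sum_div]
  refine Submodule.sum_mem _ fun m _ => ?_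
  rw [smul_div_assoc]
  refine Submodule.smul_mem _ _ (Submodule.subset_span fun σ => ?_)
  rw [map_div₀, hinv σ (Subgroup.mem_top σ), galF_phiF, MvPolynomial.map_monomial, map_one]

/-- the field `fix_span` of `Geo0.RatStr`. -/
theorem fix_span (A : ValuationSubring Qb) :
    Submodule.span Qb {u : FF M | Geo0.FixF (αI M A) u} = ⊤ :=
  eq_top_iff.2 fun f _ =>
    Submodule.span_mono
      (fun (u : FF M) (h : ∀ σ : GQ, galF M σ u = u) => fixF_iff.2 fun σ _ => h σ)
      (mem_span_fixed f)

end

end Fermat.Agent.S19.Mod
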