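import Fermat.Agent.S19.Mod.Base
import Fermat.Agent.S19.RL.Coord
import Fermat.Agent.S19.A.Final
import Fermat.Agent.S19.A.TopJ
import Fermat.Agent.S19.LD.Final
import Fermat.Agent.Crux.GM.CoordH

/-!
# S19 / Mod / Top : the final wiring

* `coord`                   : `Loc.Coord` for `J = JZero M`, `Γ = I_A` (from `RL.exists_coord`, `good`, `ratStr`);
* `hasFlatModel_admissible` : S19 at admissible levels (`A.hasFlatModel_of_coord_inertia`);
* `final`                   : the frozen statement of S19 (`LD.S19_of_admissible`).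
-/

set_option autoImplicit false

open AlgebraicCurve ModularCurve

namespace Fermat.Agent.S19.Mod

open Fermat.Agent.ES (Qb FF GQ)
open Fermat.Agent.S37.Mod
open Fermat.Agent

noncomputable section

theorem αI_injective (M : ℕ) (A : ValuationSubring Qb) : Function.Injective (αI M A) := by
  intro σ τ h
  apply Subtype.ext
  apply AlgEquiv.ext
  intro a
  exact congrArg (fun g : SemilinearAut Qb (FF M) => SemilinearAut.baseAut g a) h

/-- `I_A ≃* ` its image in `SemilinearAut Qb (FF M)`. -/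
def eI (M : ℕ) (A : ValuationSubring Qb) : ↥(A.inertiaSubgroupIn ℚ) ≃* (αI M A).range :=
  MonoidHom.ofInjective (αI_injective M A)

theorem coe_eI (M : ℕ) (A : ValuationSubring Qb) (σ : ↥(A.inertiaSubgroupIn ℚ)) :
    ((eI M A σ : (αI M A).range) : SemilinearAut Qb (FF M)) = gal M (σ : GQ) := rfl

/-- coordinates on the kernel of reduction of `J_0(M)`, `M` admissible. -/
theorem coord (M ℓ : ℕ) [NeZero M] (hℓ : ℓ.Prime) (hM : ¬ ℓ ∣ M) (hadm : Crux.Admissible ℓ M)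
    (A : ValuationSubring Qb) (hA : A.LiesOverPrime ℓ) :
    ∃ (J1 : AddSubgroup (JZero M)) (g : ℕ) (z : JZero M → Fin g → Qb),
      Loc.Coord A (Loc.βI (A.inertiaSubgroupIn ℚ)) J1 z := by
  obtain ⟨xh, β, n, hx⟩ := Crux.GM.exists_goodCoord M ℓ hℓ hM hadm
  obtain ⟨g, z, hz⟩ := RL.exists_coord (good hℓ hx hA) (ratStr hℓ hx hA)
  exact ⟨_, g, z, hz.of_mulEquiv (eI M A) (fun _ => rfl) (fun _ _ => rfl)⟩

/-- S19 at admissible levels. -/
theorem hasFlatModel_admissible (ℓ : ℕ) [Fact ℓ.Prime] (M : ℕ) [NeZero M] (hM : ¬ ℓ ∣ M)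
    (hadm : Crux.Admissible ℓ M) (k : ℕ) :
    S19.A.HasFlatModel ℓ (Submodule.torsionBy ℤ (JZero M) ((ℓ : ℤ) ^ k))
      (S19.A.torsAct M ((ℓ : ℤ) ^ k)) := by
  have hℓ : ℓ.Prime := Fact.out
  obtain ⟨A, hA⟩ := S54.exists_liesOverPrime ℓ hℓ
  obtain ⟨J1, g, z, hz⟩ := coord M ℓ hℓ hM hadm A hA
  haveI : Finite (Submodule.torsionBy ℤ (JZero M) ((ℓ : ℤ) ^ k)) :=
    S19.A.finite_torsionBy M _ (pow_ne_zero _ (Int.natCast_ne_zero.2 hℓ.ne_zero))
  exact S19.A.hasFlatModel_of_coord_inertia (S19.A.isGalAction_torsAct M _) hA hz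
    (Submodule.torsionBy ℤ (JZero M) ((ℓ : ℤ) ^ k)).subtype.toAddMonoidHom
    Subtype.val_injective (fun _ _ => rfl)

/-- the frozen statement of S19 (to be copied to `Fermat/Agent/S19.lean` when the closure is sorry-free). -/
theorem final
    (p : ℕ) [NeZero p] (ℓ : ℕ) [Fact ℓ.Prime] (hℓp : ¬ ℓ ∣ p) (k : ℕ) :
    ∃ (H : Type) (_ : CommRing H) (_ : HopfAlgebra (GaloisRep.ratLocalizedAt ℓ) H),
      Module.Finite (GaloisRep.ratLocalizedAt ℓ) H ∧ Module.Flat (GaloisRep.ratLocalizedAt ℓ) H ∧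
      Coalgebra.IsCocomm (GaloisRep.ratLocalizedAt ℓ) H ∧
      ∃ e : WithConv (H →ₐ[GaloisRep.ratLocalizedAt ℓ] AlgebraicClosure ℚ) ≃
          ↥(Submodule.torsionBy ℤ (JZero p) ((ℓ : ℤ) ^ k)),
        (∀ f g, e (f * g) = e f + e g) ∧
        ∀ (σ : AlgebraicClosure ℚ ≃ₐ[ℚ] AlgebraicClosure ℚ)
          (f g : WithConv (H →ₐ[GaloisRep.ratLocalizedAt ℓ] AlgebraicClosure ℚ)),
          (∀ h : H, g h = σ (f h)) → ((e g : JZero p)) = σ • (e f : JZero p) :=
  LD.S19_of_admissible (fun M _ hM hadm k => hasFlatModel_admissible ℓ M hM hadm k) p hℓp k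

end

end Fermat.Agent.S19.Mod
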